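import Fermat.Agent.Nullcone.Factor
import Mathlib.Algebra.Order.BigOperators.Group.Finset
import Mathlib.Data.Nat.Choose.Sum
import Mathlib.Algebra.Algebra.Pi
import Mathlib.Algebra.Algebra.Operations

/-!
# Brackets

The symmetrisation of a product of one form of a fixed degree at each root is, by inclusion and
exclusion, a combination of products of one form over all the roots, and these are polynomials in
the coefficients. So a regular family of brackets gives an invariant.
-/

set_option autoImplicit false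

noncomputable section

open MvPolynomial

namespace FA.Nullcone

open FA.CayleySylvester (formOf subst)

variable {d : ℕ}

/-- **Inclusion and exclusion for a symmetrised product.** -/
theorem sum_perm_prod {R : Type*} [CommRing R] (W : Fin d → Fin d → R) :
    ∑ σ : Equiv.Perm (Fin d), ∏ j, W j (σ j) =
      ∑ U : Finset (Fin d), (-1) ^ U.card * ∏ i, ∑ j ∈ Uᶜ, W j i := by
  classical
  have h1 : ∀ U : Finset (Fin d), ∏ i, ∑ j ∈ Uᶜ, W j i =
      ∑ g : Fin d → Fin d, if U ⊆ (Finset.univ.image g)ᶜ then ∏ i, W (g i) i else 0 := fun U => by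
    rw [Finset.prod_univ_sum, ← Finset.sum_filter]
    refine Finset.sum_congr ?_ fun _ _ => rfl
    ext g
    simp only [Fintype.mem_piFinset, Finset.mem_compl, Finset.mem_filter, Finset.mem_univ,
      true_and, Finset.subset_iff, Finset.mem_image]
    exact ⟨fun h x hx ⟨i, hi⟩ => h i (hi ▸ hx), fun h i hi => h hi ⟨i, rfl⟩⟩
  simp only [h1, Finset.mul_sum]
  rw [Finset.sum_comm]
  have h2 : ∀ g : Fin d → Fin d, (∑ U : Finset (Fin d), (-1 : R) ^ U.card *
      if U ⊆ (Finset.univ.image g)ᶜ then ∏ i, W (g i) i else 0) =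
        if Function.Bijective g then ∏ i, W (g i) i else 0 := fun g => by
    simp only [mul_ite, mul_zero]
    rw [← Finset.sum_filter, Finset.filter_subset_univ, ← Finset.sum_mul,
      show (∑ U ∈ (Finset.univ.image g)ᶜ.powerset, (-1 : R) ^ U.card) =
        ((∑ U ∈ (Finset.univ.image g)ᶜ.powerset, (-1 : ℤ) ^ U.card : ℤ) : R) by push_cast; rfl,
      Finset.sum_powerset_neg_one_pow_card]
    have he : (Finset.univ.image g)ᶜ = ∅ ↔ Function.Bijective g := by
      rw [Finset.compl_eq_empty_iff, ← Finite.surjective_iff_bijective]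
      simp [Finset.eq_univ_iff_forall, Function.Surjective]
    by_cases hg : Function.Bijective g
    · rw [if_pos (he.2 hg), if_pos hg, Int.cast_one, one_mul]
    · rw [if_neg (he.not.2 hg), if_neg hg, Int.cast_zero, zero_mul]
  simp only [h2]
  rw [← Finset.sum_filter]
  refine Finset.sum_bij' (fun σ _ => ⇑σ.symm) (fun g hg =>
    (Equiv.ofBijective g (Finset.mem_filter.1 hg).2).symm) (fun σ _ => ?_) (fun g _ => ?_)
    (fun σ _ => ?_) (fun g _ => ?_) fun σ _ => ?_
  · exact Finset.mem_filter.2 ⟨Finset.mem_univ _, σ.symm.bijective⟩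
  · exact Finset.mem_univ _
  · exact Equiv.ext fun i => σ.symm.injective
      ((Equiv.ofBijective_apply_symm_apply (⇑σ.symm) σ.symm.bijective i).trans
        (σ.symm_apply_apply i).symm)
  · rfl
  · exact Fintype.prod_equiv σ _ _ fun i => by rw [Equiv.symm_apply_apply]

variable {k : Type*} [Field k]

/-- Functions of the roots given by one form of degree `e j` at each root `j`. -/
def prodSpace (e : Fin d → ℕ) : Submodule k ((Fin d → Fin 2 → k) → k) :=
  Submodule.span k {F | ∃ w : Fin d → MvPolynomial (Fin 2) k,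
    (∀ j, (w j).IsHomogeneous (e j)) ∧ F = fun r => ∏ j, eval (r j) (w j)}

theorem mul_mem_prodSpace {e e' : Fin d → ℕ} {F G : (Fin d → Fin 2 → k) → k}
    (hF : F ∈ prodSpace e) (hG : G ∈ prodSpace e') : F * G ∈ prodSpace (e + e') := by
  refine Submodule.mul_le.1 ?_ F hF G hG
  rw [prodSpace, prodSpace, Submodule.span_mul_span]
  refine Submodule.span_le.2 ?_
  rintro _ ⟨_, ⟨w, hw, rfl⟩, _, ⟨w', hw', rfl⟩, rfl⟩
  exact Submodule.subset_span ⟨w * w', fun j => (hw j).mul (hw' j), funext fun r => by
    simp [Finset.prod_mul_distrib]⟩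

theorem one_mem_prodSpace : (1 : (Fin d → Fin 2 → k) → k) ∈ prodSpace 0 :=
  Submodule.subset_span ⟨1, fun _ => isHomogeneous_one _ _, by funext r; simp⟩

theorem prod_mem_prodSpace {ι : Type*} (s : Finset ι) {e : ι → Fin d → ℕ}
    {F : ι → (Fin d → Fin 2 → k) → k} (h : ∀ i ∈ s, F i ∈ prodSpace (e i)) :
    ∏ i ∈ s, F i ∈ prodSpace (∑ i ∈ s, e i) := by
  induction s using Finset.cons_induction with
  | empty => simpa using one_mem_prodSpace
  | cons i s hi ih =>
    rw [Finset.prod_cons, Finset.sum_cons]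
    exact mul_mem_prodSpace (h i (Finset.mem_cons_self i s))
      (ih fun l hl => h l (Finset.mem_cons_of_mem hl))

/-- The bracket. -/
def br (a b : Fin 2 → k) : k :=
  a 0 * b 1 - a 1 * b 0

theorem br_mulVec (g : Matrix (Fin 2) (Fin 2) k) (a b : Fin 2 → k) :
    br (g.mulVec a) (g.mulVec b) = g.det * br a b := by
  simp [br, Matrix.mulVec, dotProduct, Fin.sum_univ_two, Matrix.det_fin_two]
  ring

theorem br_mem_prodSpace (a b : Fin d) :
    (fun r : Fin d → Fin 2 → k => br (r a) (r b)) ∈ prodSpace (Pi.single a 1 + Pi.single b 1) := by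
  classical
  rcases eq_or_ne a b with rfl | hab
  · convert! zero_mem (prodSpace (k := k) (Pi.single a 1 + Pi.single a 1))
    simp [br, mul_comm]
  have hterm : ∀ p q : Fin 2, (fun r : Fin d → Fin 2 → k => r a p * r b q) ∈
      prodSpace (Pi.single a 1 + Pi.single b 1) := fun p q => by
    refine Submodule.subset_span ⟨Function.update (Function.update 1 a (X p)) b (X q),
      fun j => ?_, funext fun r => ?_⟩
    · rcases eq_or_ne j b with rfl | hb
      · simpa [hab.symm] using isHomogeneous_X k q
      rcases eq_or_ne j a with rfl | ha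
      · simpa [hb] using isHomogeneous_X k p
      simpa [ha, hb] using isHomogeneous_one (Fin 2) k
    · rw [Fintype.prod_eq_mul a b hab fun j hj => by simp [hj.1, hj.2]]
      simp [hab]
  exact sub_mem (hterm 0 1) (hterm 1 0)

/-- Polynomials in the coefficients as functions of the roots. -/
def coeffFun : MvPolynomial (Fin (d + 1)) k →ₐ[k] ((Fin d → Fin 2 → k) → k) :=
  aeval fun i r => prodCoeff r i

theorem coeffFun_apply (Q : MvPolynomial (Fin (d + 1)) k) (r : Fin d → Fin 2 → k) :
    coeffFun Q r = eval (prodCoeff r) Q := by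
  induction Q using MvPolynomial.induction_on with
  | C a => simp [coeffFun]
  | add p q hp hq => simp only [map_add, Pi.add_apply, hp, hq]
  | mul_X p i hp => rw [map_mul, map_mul, Pi.mul_apply, hp, coeffFun, aeval_X, eval_X]

/-- The value of a form at a point, in the coefficients. -/
theorem eval_formOf (b : Fin 2 → k) (c : Fin (d + 1) → k) :
    eval b (formOf c) =
      eval c (∑ i : Fin (d + 1), C (b 0 ^ (d - (i : ℕ)) * b 1 ^ (i : ℕ)) * X i) := by
  simp [formOf, map_sum, mul_comm]

variable [IsAlgClosed k]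

/-- The product of one form over all the roots is a polynomial in the coefficients. -/
theorem prod_eval_mem_range {e : ℕ} {L : MvPolynomial (Fin 2) k} (hL : L.IsHomogeneous e) :
    (fun r : Fin d → Fin 2 → k => ∏ j, eval (r j) L) ∈ (coeffFun (k := k) (d := d)).range := by
  obtain ⟨c, b, rfl⟩ := exists_factor hL
  refine ⟨C (c ^ d) * ∏ s, ∑ i : Fin (d + 1), C (b s 0 ^ (d - (i : ℕ)) * b s 1 ^ (i : ℕ)) * X i,
    funext fun r => ?_⟩
  show coeffFun _ r = _
  rw [coeffFun_apply, map_mul, map_prod, eval_C]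
  rw [Finset.prod_congr rfl fun s _ => (eval_formOf (b s) _).symm]
  simp only [formOf_prodCoeff, prodForm, map_mul, map_prod, eval_C,
    Finset.prod_mul_distrib, Finset.prod_const, Finset.card_univ, Fintype.card_fin, eval_lin]
  rw [Finset.prod_comm]
  simp [mul_comm]

/-- The symmetrisation. -/
def symmFun : ((Fin d → Fin 2 → k) → k) →ₗ[k] ((Fin d → Fin 2 → k) → k) :=
  ∑ σ : Equiv.Perm (Fin d), LinearMap.funLeft k k fun r => r ∘ σ

omit [IsAlgClosed k] in
theorem symmFun_apply (F : (Fin d → Fin 2 → k) → k) (r : Fin d → Fin 2 → k) :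
    symmFun F r = ∑ σ : Equiv.Perm (Fin d), F (r ∘ σ) := by
  simp [symmFun]

/-- **Symmetrised products are polynomials in the coefficients.** -/
theorem symmFun_mem_range {e : ℕ} {F : (Fin d → Fin 2 → k) → k}
    (hF : F ∈ prodSpace fun _ => e) : symmFun F ∈ (coeffFun (k := k) (d := d)).range := by
  refine Submodule.span_le (p := ((coeffFun (k := k) (d := d)).range.toSubmodule).comap symmFun)
    |>.2 ?_ hF
  rintro _ ⟨w, hw, rfl⟩
  show symmFun _ ∈ (coeffFun (k := k) (d := d)).range
  rw [show symmFun (fun r : Fin d → Fin 2 → k => ∏ j, eval (r j) (w j)) =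
    ∑ U : Finset (Fin d), ((-1 : k) ^ U.card) •
      fun r : Fin d → Fin 2 → k => ∏ i, eval (r i) (∑ j ∈ Uᶜ, w j) from funext fun r => by
        simpa [symmFun_apply, map_sum] using sum_perm_prod fun j i => eval (r i) (w j)]
  exact sum_mem fun U _ => Subalgebra.smul_mem _
    (prod_eval_mem_range (IsHomogeneous.sum _ _ _ fun j _ => hw j)) _

variable (k) in
/-- **Bracket invariants.** -/
theorem exists_bracket_invariant {ι : Type*} [Fintype ι] (a b : ι → Fin d) (e : ℕ)
    (hreg : ∀ j, (Finset.univ.filter fun i => a i = j).card +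
      (Finset.univ.filter fun i => b i = j).card = e) :
    ∃ Q : MvPolynomial (Fin (d + 1)) k,
      (∀ r : Fin d → Fin 2 → k, eval (prodCoeff r) Q =
        ∑ σ : Equiv.Perm (Fin d), ∏ i, br (r (σ (a i))) (r (σ (b i)))) ∧
      ∀ g : Matrix (Fin 2) (Fin 2) k, g.det = 1 → ∀ c, eval (subst g c) Q = eval c Q := by
  classical
  have hF := prod_mem_prodSpace (Finset.univ : Finset ι) fun i _ =>
    br_mem_prodSpace (k := k) (a i) (b i)
  rw [show (∑ i, (Pi.single (a i) 1 + Pi.single (b i) 1) : Fin d → ℕ) = fun _ => e from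
    funext fun j => by
      rw [← hreg j]
      rw [Finset.sum_apply, Finset.card_filter, Finset.card_filter, ← Finset.sum_add_distrib]
      exact Finset.sum_congr rfl fun i _ => by
        rw [Pi.add_apply, Pi.single_apply, Pi.single_apply, if_congr (eq_comm (a := j)) rfl rfl,
          if_congr (eq_comm (a := j) (b := b i)) rfl rfl]] at hF
  obtain ⟨Q, hQ⟩ := symmFun_mem_range hF
  have h : ∀ r : Fin d → Fin 2 → k, eval (prodCoeff r) Q =
      ∑ σ : Equiv.Perm (Fin d), ∏ i, br (r (σ (a i))) (r (σ (b i))) := fun r => by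
    rw [← coeffFun_apply, show coeffFun Q = _ from hQ, symmFun_apply]
    simp
  refine ⟨Q, h, fun g hg c => ?_⟩
  rcases Nat.eq_zero_or_pos d with hd | hd
  · subst hd
    refine congrArg (fun c' => eval c' Q) (_root_.funext fun i => ?_)
    obtain rfl : i = (0 : Fin 1) := Fin.eq_zero i
    rw [FA.CayleySylvester.subst, formOf, Fin.sum_univ_one]
    simp [FA.CayleySylvester.coeffsOf, FA.CayleySylvester.formExp,
      Fermat.Agent.ReflectionGroups.act]
  · have : NeZero d := ⟨hd.ne'⟩
    obtain ⟨r, rfl⟩ := exists_prodCoeff c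
    rw [subst_prodCoeff, h, h]
    simp [br_mulVec, hg]

end FA.Nullcone
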