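import Fermat.Agent.CayleySylvester.Substitution
import Mathlib.Algebra.Polynomial.Homogenize
import Mathlib.Algebra.Polynomial.Splits
import Mathlib.FieldTheory.IsAlgClosed.Basic

/-!
# Linear factors of binary forms

A form of degree `d` over an algebraically closed field is a product of `d` linear forms, and a
substitution acts on each of them.
-/

set_option autoImplicit false

noncomputable section

open MvPolynomial

namespace FA.Nullcone

open FA.CayleySylvester (formOf formExp coeffsOf subst formOf_coeffsOf coeffsOf_formOf
  isHomogeneous_formOf)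
open Fermat.Agent.ReflectionGroups (act act_X isHomogeneous_act)

variable {d : ℕ} {k : Type*} [Field k]

/-- The linear form with coefficients `a`. -/
def lin (a : Fin 2 → k) : MvPolynomial (Fin 2) k :=
  ∑ j, C (a j) * X j

theorem lin_eq (a : Fin 2 → k) : lin a = C (a 0) * X 0 + C (a 1) * X 1 :=
  Fin.sum_univ_two _

theorem eval_lin (a b : Fin 2 → k) : eval b (lin a) = a 0 * b 0 + a 1 * b 1 := by
  simp [lin_eq]

theorem isHomogeneous_lin (a : Fin 2 → k) : (lin a).IsHomogeneous 1 :=
  IsHomogeneous.sum _ _ _ fun _ _ => IsHomogeneous.C_mul (isHomogeneous_X _ _) _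

theorem lin_smul (s : k) (a : Fin 2 → k) : lin (s • a) = C s * lin a := by
  simp [lin_eq, mul_add, mul_assoc]

theorem lin_eq_zero {a : Fin 2 → k} (h : lin a = 0) : a = 0 := by
  funext j
  have h0 := congrArg (eval (Pi.single j 1)) h
  rw [eval_lin, map_zero] at h0
  fin_cases j <;> simpa using h0

theorem act_lin (g : Matrix (Fin 2) (Fin 2) k) (a : Fin 2 → k) :
    act g (lin a) = lin (g.mulVec a) := by
  simp only [lin_eq, map_add, map_mul, act_X, Fin.sum_univ_two, Matrix.mulVec, dotProduct]
  rw [show act g (C (a 0)) = C (a 0) from (act g).commutes _,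
    show act g (C (a 1)) = C (a 1) from (act g).commutes _]
  ring

/-- The product of the linear forms. -/
def prodForm (r : Fin d → Fin 2 → k) : MvPolynomial (Fin 2) k :=
  ∏ i, lin (r i)

theorem isHomogeneous_prodForm (r : Fin d → Fin 2 → k) : (prodForm r).IsHomogeneous d := by
  have := IsHomogeneous.prod (Finset.univ : Finset (Fin d)) (fun i => lin (r i)) (fun _ => 1)
    fun i _ => isHomogeneous_lin (r i)
  simpa [prodForm] using this

/-- The coefficients of the product. -/
def prodCoeff (r : Fin d → Fin 2 → k) : Fin (d + 1) → k :=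
  coeffsOf d (prodForm r)

theorem formOf_prodCoeff (r : Fin d → Fin 2 → k) : formOf (prodCoeff r) = prodForm r :=
  formOf_coeffsOf (isHomogeneous_prodForm r)

theorem subst_prodCoeff (g : Matrix (Fin 2) (Fin 2) k) (r : Fin d → Fin 2 → k) :
    subst g (prodCoeff r) = prodCoeff fun i => g.mulVec (r i) := by
  rw [subst, formOf_prodCoeff, prodForm, map_prod]
  simp only [act_lin]
  rfl

theorem prodForm_zero [NeZero d] : prodForm (0 : Fin d → Fin 2 → k) = 0 :=
  Finset.prod_eq_zero (Finset.mem_univ 0) (by simp [lin_eq])

variable [IsAlgClosed k]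

/-- **A binary form is a product of linear forms.** -/
theorem exists_factor {e : ℕ} {f : MvPolynomial (Fin 2) k} (hf : f.IsHomogeneous e) :
    ∃ (c : k) (r : Fin e → Fin 2 → k), f = C c * prodForm r := by
  classical
  set p : Polynomial k := aeval ![Polynomial.X, 1] f with hp
  have hfp : p.homogenize e = f := Polynomial.homogenize_eq_of_isHomogeneous hf rfl
  have hsp := IsAlgClosed.splits p
  have hcard : p.roots.card ≤ e := by
    refine p.card_roots'.trans ?_
    rw [hp, aeval_eq_eval₂Hom, coe_eval₂Hom, eval₂_eq']
    refine Polynomial.natDegree_sum_le_of_forall_le _ _ fun μ hμ => ?_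
    have h : μ 0 + μ 1 = e := by
      simpa [Finsupp.weight_apply, Finsupp.sum_fintype, Fin.sum_univ_two] using
        hf (mem_support_iff.1 hμ)
    simp only [Fin.prod_univ_two, Matrix.cons_val_zero, Matrix.cons_val_one, one_pow, mul_one,
      ← Polynomial.C_eq_algebraMap]
    exact (Polynomial.natDegree_C_mul_X_pow_le _ _).trans (by omega)
  set L : List (Fin 2 → k) := (p.roots.map fun a => (![1, -a] : Fin 2 → k)).toList ++
    List.replicate (e - p.roots.card) ![0, 1] with hL
  have hlen : L.length = e := by
    rw [hL, List.length_append, Multiset.length_toList, Multiset.card_map, List.length_replicate]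
    omega
  have hmult : ∀ R : Multiset k,
      (R.map fun a => Polynomial.X - Polynomial.C a).prod.homogenize R.card =
        (R.map fun a => lin ![1, -a]).prod := fun R => by
    induction R using Multiset.induction_on with
    | empty => simp
    | cons a R ih =>
      rw [Multiset.map_cons, Multiset.prod_cons, Multiset.card_cons, Multiset.map_cons,
        Multiset.prod_cons, add_comm,
        Polynomial.homogenize_mul _ _ (Polynomial.natDegree_X_sub_C a).le
          (le_of_eq (Polynomial.natDegree_multiset_prod_X_sub_C_eq_card R)), ih,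
        sub_eq_add_neg Polynomial.X, ← Polynomial.C_neg]
      simp [lin_eq]
  refine ⟨p.leadingCoeff, fun i => L.get (Fin.cast hlen.symm i), ?_⟩
  have hprod : prodForm (fun i => L.get (Fin.cast hlen.symm i)) = (L.map lin).prod := by
    rw [prodForm, ← Fin.prod_univ_fun_getElem]
    exact Fintype.prod_equiv (finCongr hlen.symm) _ _ fun _ => rfl
  rw [hprod, hL, List.map_append, List.prod_append, List.map_replicate, List.prod_replicate,
    ← Multiset.prod_coe, ← Multiset.map_coe, Multiset.coe_toList, Multiset.map_map,
    show lin (![0, 1] : Fin 2 → k) = X 1 by simp [lin_eq], ← Polynomial.homogenize_one,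
    Function.comp_def, ← hmult, ← Polynomial.homogenize_mul _ _
      (le_of_eq (Polynomial.natDegree_multiset_prod_X_sub_C_eq_card _))
      (Polynomial.natDegree_one.trans_le (Nat.zero_le _)), mul_one,
    Nat.add_sub_cancel' hcard, ← Polynomial.homogenize_C_mul, ← hsp.eq_prod_roots, hfp]

/-- Every form of positive degree is a product. -/
theorem exists_prodCoeff [NeZero d] (c : Fin (d + 1) → k) : ∃ r, prodCoeff r = c := by
  obtain ⟨s, r, h⟩ := exists_factor (isHomogeneous_formOf c)
  refine ⟨Function.update r 0 (s • r 0), ?_⟩
  rw [prodCoeff, show prodForm (Function.update r 0 (s • r 0)) = formOf c from ?_, coeffsOf_formOf]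
  rw [h, prodForm, prodForm, Finset.prod_eq_mul_prod_sdiff_singleton_of_mem (Finset.mem_univ 0),
    Finset.prod_eq_mul_prod_sdiff_singleton_of_mem (Finset.mem_univ 0) (fun i => lin (r i)),
    Function.update_self, lin_smul, mul_assoc]
  refine congrArg _ (congrArg _ (Finset.prod_congr rfl fun i hi => ?_))
  rw [Function.update_of_ne (by simpa using hi)]

end FA.Nullcone
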