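import Fermat.Agent.Nullcone.Bracket
import Mathlib.Data.Fin.Tuple.Sort

/-!
# The nullcone

If no root has multiplicity above `d / 2`, the roots can be numbered so that `i` and `i + d / 2`
are never equal modulo `d`, and a power sum of the symmetrised brackets does not vanish. Otherwise
a torus shrinks the form to zero.
-/

set_option autoImplicit false

noncomputable section

open MvPolynomial

namespace FA.Nullcone

open FA.CayleySylvester (formOf formExp coeffsOf subst coeffsOf_formOf formOf_coeffsOf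
  isHomogeneous_formOf subst_mul subst_one)
open Fermat.Agent.ReflectionGroups (act act_X isHomogeneous_act)

variable {k : Type*} [Field k] [CharZero k]

/-- A family of numbers, not all zero, has a nonvanishing power sum. -/
theorem exists_powerSum_ne_zero {ι : Type*} [Fintype ι] (a : ι → k) {i₀ : ι} (h : a i₀ ≠ 0) :
    ∃ m, 0 < m ∧ ∑ i, a i ^ m ≠ 0 := by
  classical
  by_contra hc
  simp only [not_exists, not_and, not_not] at hc
  set p : Polynomial k := Polynomial.X *
    ∏ v ∈ (Finset.univ.image a).erase (a i₀), (Polynomial.X - Polynomial.C v) with hp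
  have h1 : ∑ i, p.eval (a i) = 0 := by
    simp only [Polynomial.eval_eq_sum_range]
    rw [Finset.sum_comm]
    refine Finset.sum_eq_zero fun m _ => ?_
    rw [← Finset.mul_sum]
    rcases Nat.eq_zero_or_pos m with rfl | hm
    · simp [hp, Polynomial.mul_coeff_zero]
    · rw [hc m hm, mul_zero]
  have h2 : ∀ i, p.eval (a i) = if a i = a i₀ then p.eval (a i₀) else 0 := fun i => by
    split_ifs with e
    · rw [e]
    · rw [hp, Polynomial.eval_mul, Polynomial.eval_prod, Finset.prod_eq_zero
        (Finset.mem_erase.2 ⟨e, Finset.mem_image_of_mem a (Finset.mem_univ i)⟩) (by simp), mul_zero]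
  rw [Finset.sum_congr rfl fun i _ => h2 i, ← Finset.sum_filter, Finset.sum_const,
    nsmul_eq_mul, mul_eq_zero] at h1
  rcases h1 with h1 | h1
  · refine Nat.cast_ne_zero.2 (Finset.card_ne_zero_of_mem (a := i₀) ?_) h1
    exact Finset.mem_filter.2 ⟨Finset.mem_univ i₀, rfl⟩
  · rw [hp, Polynomial.eval_mul, Polynomial.eval_prod, mul_eq_zero, Polynomial.eval_X,
      Finset.prod_eq_zero_iff] at h1
    obtain h1 | ⟨v, hv, hv0⟩ := h1
    · exact h h1
    · rw [Polynomial.eval_sub, Polynomial.eval_X, Polynomial.eval_C, sub_eq_zero] at hv0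
      exact (Finset.mem_erase.1 hv).1 hv0.symm

variable {d : ℕ}

omit [CharZero k] in
/-- A small multiplicity makes room for a cycle avoiding equal roots. -/
theorem exists_br_ne_zero [NeZero d] (r : Fin d → Fin 2 → k) (hr : ∀ i, r i ≠ 0)
    (hsmall : ∀ (v : Fin 2 → k) (s : Finset (Fin d)), v ≠ 0 → (∀ i ∈ s, ∃ t : k, r i = t • v) →
      2 * s.card ≤ d) :
    ∃ a b : Fin d → Fin d, (∀ j, (Finset.univ.filter fun i => a i = j).card +
      (Finset.univ.filter fun i => b i = j).card = 2) ∧ ∀ i, br (r (a i)) (r (b i)) ≠ 0 := by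
  classical
  have hpar : ∀ u v : Fin d, br (r u) (r v) = 0 → ∃ t : k, r u = t • r v := fun u v h => by
    rw [br, sub_eq_zero] at h
    by_cases h0 : r v 0 = 0
    · have h1 : r v 1 ≠ 0 := fun h1 => hr v (funext fun j => by fin_cases j <;> assumption)
      refine ⟨r u 1 / r v 1, funext fun j => ?_⟩
      rw [h0, mul_zero] at h
      fin_cases j
      · simpa [h0, h1] using h
      · simp [h1]
    · refine ⟨r u 0 / r v 0, funext fun j => ?_⟩
      fin_cases j
      · simp [h0]
      · show r u 1 = r u 0 / r v 0 * r v 1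
        field_simp
        linear_combination -h
  set cl : Fin d → Finset (Fin d) := fun i => Finset.univ.filter fun j => br (r i) (r j) = 0
  set f : Fin d → Fin d := fun i => (cl i).min' ⟨i, by simp [cl, br, mul_comm]⟩
  have hf : ∀ i, ∃ t : k, r i = t • r (f i) := fun i =>
    hpar i _ (Finset.mem_filter.1 (Finset.min'_mem (cl i) _)).2
  have hf' : ∀ i j, br (r i) (r j) = 0 → f i = f j := fun i j hij => by
    obtain ⟨t, ht⟩ := hpar i j hij
    have ht0 : t ≠ 0 := fun h => hr i (by rw [ht, h, zero_smul])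
    have : cl i = cl j := Finset.filter_congr fun l _ => by
      rw [ht, show br (t • r j) (r l) = t * br (r j) (r l) by simp [br]; ring, mul_eq_zero,
        or_iff_right ht0]
    simp only [f, this]
  set τ := Tuple.sort f
  have hmono : Monotone (f ∘ τ) := Tuple.monotone_sort f
  have hgap : ∀ a b : Fin d, a ≤ b → f (τ a) = f (τ b) → 2 * ((b : ℕ) + 1 - a) ≤ d :=
    fun a b hab he => by
      rw [← Fin.card_Icc, ← Finset.card_map τ.toEmbedding]
      refine hsmall _ _ (hr (f (τ a))) fun i hi => ?_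
      obtain ⟨l, hl, rfl⟩ := Finset.mem_map.1 hi
      rw [Finset.mem_Icc] at hl
      have : f (τ l) = f (τ a) :=
        le_antisymm ((hmono hl.2).trans he.ge) (hmono hl.1)
      exact this ▸ hf (τ l)
  have hπ : Function.Bijective fun i : Fin d => i + (Fin.ofNat d (d / 2)) :=
    (Equiv.addRight (Fin.ofNat d (d / 2))).bijective
  refine ⟨fun i => τ i, fun i => τ (i + Fin.ofNat d (d / 2)), fun j => ?_, fun i h => ?_⟩
  · have e : ∀ g : Fin d → Fin d, Function.Bijective g →
        (Finset.univ.filter fun i => g i = j).card = 1 := fun g hg => by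
      obtain ⟨i, rfl⟩ := hg.2 j
      rw [Finset.filter_congr fun l _ => (hg.1.eq_iff : g l = g i ↔ l = i),
        Finset.filter_eq', if_pos (Finset.mem_univ _), Finset.card_singleton]
    rw [e (fun i => τ i) τ.bijective,
      e (fun i => τ (i + Fin.ofNat d (d / 2))) (τ.bijective.comp hπ)]
  · have he := hf' _ _ h
    have hv : ((i + Fin.ofNat d (d / 2) : Fin d) : ℕ) = ((i : ℕ) + d / 2) % d := by
      rw [Fin.val_add, Fin.val_ofNat, Nat.add_mod_mod]
    have hi := i.2
    rcases Nat.lt_or_ge ((i : ℕ) + d / 2) d with hlt | hge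
    · rw [Nat.mod_eq_of_lt hlt] at hv
      have := hgap i _ (Fin.le_def.2 (by omega)) he
      omega
    · rw [Nat.mod_eq_sub_mod hge, Nat.mod_eq_of_lt (by omega)] at hv
      have := hgap _ i (Fin.le_def.2 (by omega)) he.symm
      omega

variable [IsAlgClosed k]

/-- A form without a large root has an invariant not vanishing at it. -/
theorem exists_invariant_ne_zero (c : Fin (d + 1) → k)
    (h : ∀ (v : Fin 2 → k) (m : ℕ), v ≠ 0 → d < 2 * m → ¬lin v ^ m ∣ formOf c) :
    ∃ P : MvPolynomial (Fin (d + 1)) k,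
      (∀ g : Matrix (Fin 2) (Fin 2) k, g.det = 1 → ∀ c, eval (subst g c) P = eval c P) ∧
        eval c P ≠ eval 0 P := by
  classical
  rcases Nat.eq_zero_or_pos d with rfl | hd
  · refine ⟨X 0, fun g _ c => ?_, fun h0 => h ![1, 0] 1 (fun e => by simpa using congrFun e 0)
      (by omega) ?_⟩
    · simp [subst, formOf, coeffsOf, formExp, Fermat.Agent.ReflectionGroups.act]
    · rw [eval_X, eval_X] at h0
      simp [formOf, h0]
  have : NeZero d := ⟨hd.ne'⟩
  obtain ⟨r, rfl⟩ := exists_prodCoeff c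
  rw [formOf_prodCoeff] at h
  have hr : ∀ i, r i ≠ 0 := fun i hi => h ![1, 0] (d + 1) (fun e => by simpa using congrFun e 0)
    (by omega) (by
      rw [show prodForm r = 0 from Finset.prod_eq_zero (Finset.mem_univ i) (by simp [hi, lin_eq])]
      exact dvd_zero _)
  obtain ⟨a, b, hreg, hne⟩ := exists_br_ne_zero r hr fun v s hv hs => by
    by_contra hlt
    refine h v s.card hv (by omega) ?_
    rw [prodForm, ← Finset.prod_sdiff s.subset_univ]
    refine dvd_mul_of_dvd_right ?_ _
    rw [← Finset.prod_const]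
    refine Finset.prod_dvd_prod_of_dvd _ _ fun i hi => ?_
    obtain ⟨t, ht⟩ := hs i hi
    exact ⟨C t, by rw [ht, lin_smul, mul_comm]⟩
  obtain ⟨m, hm, hsum⟩ := exists_powerSum_ne_zero
    (fun σ : Equiv.Perm (Fin d) => ∏ i, br (r (σ (a i))) (r (σ (b i)))) (i₀ := 1)
    (Finset.prod_ne_zero_iff.2 fun i _ => hne i)
  obtain ⟨Q, hQ, hinv⟩ := exists_bracket_invariant k (fun p : Fin d × Fin m => a p.1)
    (fun p : Fin d × Fin m => b p.1) (2 * m) fun j => by
      rw [← hreg j, add_mul]
      refine congrArg₂ _ ?_ ?_ <;>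
      · conv_rhs => rw [← Fintype.card_fin m, ← Finset.card_univ, ← Finset.card_product]
        exact congrArg Finset.card (Finset.ext fun p => by simp)
  have hval : ∀ r' : Fin d → Fin 2 → k, eval (prodCoeff r') Q =
      ∑ σ : Equiv.Perm (Fin d), (∏ i, br (r' (σ (a i))) (r' (σ (b i)))) ^ m := fun r' => by
    rw [hQ]
    refine Finset.sum_congr rfl fun σ _ => ?_
    rw [← Finset.prod_pow, Fintype.prod_prod_type]
    simp
  have h0 : eval (0 : Fin (d + 1) → k) Q = 0 := by
    rw [show (0 : Fin (d + 1) → k) = prodCoeff (0 : Fin d → Fin 2 → k) from ?_, hval]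
    · refine Finset.sum_eq_zero fun σ _ => ?_
      rw [Finset.prod_eq_zero (Finset.mem_univ 0) (by simp [br]), zero_pow hm.ne']
    · funext i
      simp [prodCoeff, prodForm_zero, coeffsOf]
  refine ⟨Q, hinv, ?_⟩
  rwa [h0, hval]

omit [CharZero k] [IsAlgClosed k] in
/-- The coefficients of a multiple of a power of `y` start late. -/
theorem coeff_eq_zero_of_dvd {m : ℕ} {f : MvPolynomial (Fin 2) k} (h : X 1 ^ m ∣ f) {i : ℕ}
    (hi : i < m) : coeff (formExp d i) f = 0 := by
  obtain ⟨q, rfl⟩ := h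
  rw [X_pow_eq_monomial, coeff_monomial_mul', if_neg fun hle => ?_]
  have := hle 1
  simp [formExp] at this
  omega

omit [IsAlgClosed k] in
/-- A large root makes all invariants equal to their values at zero. -/
theorem eval_eq_of_dvd {c : Fin (d + 1) → k} {v : Fin 2 → k} {m : ℕ} (hv : v ≠ 0) (hm : d < 2 * m)
    (hdvd : lin v ^ m ∣ formOf c) {P : MvPolynomial (Fin (d + 1)) k}
    (hP : ∀ g : Matrix (Fin 2) (Fin 2) k, g.det = 1 → ∀ c, eval (subst g c) P = eval c P) :
    eval c P = eval 0 P := by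
  obtain ⟨g, hg, hgv⟩ : ∃ g : Matrix (Fin 2) (Fin 2) k, g.det = 1 ∧ g.mulVec v = ![0, 1] := by
    by_cases h1 : v 1 = 0
    · have h0 : v 0 ≠ 0 := fun h0 => hv (funext fun j => by fin_cases j <;> assumption)
      refine ⟨!![0, -v 0; 1 / v 0, 0], by simp [Matrix.det_fin_two, h0], funext fun j => ?_⟩
      fin_cases j <;> simp [Matrix.mulVec, dotProduct, Fin.sum_univ_two, h0, h1]
    · refine ⟨!![v 1, -v 0; 0, 1 / v 1], by simp [Matrix.det_fin_two, h1], funext fun j => ?_⟩
      fin_cases j <;> simp [Matrix.mulVec, dotProduct, Fin.sum_univ_two, h1]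
      ring
  rw [← hP g hg c]
  set c' := subst g c with hc'
  have hzero : ∀ i : Fin (d + 1), (i : ℕ) < m → c' i = 0 := fun i hi => by
    refine coeff_eq_zero_of_dvd (m := m) ?_ hi
    have h' := map_dvd (act g) hdvd
    rwa [map_pow, act_lin, hgv, show lin (![0, 1] : Fin 2 → k) = X 1 by simp [lin_eq]] at h'
  set q : Polynomial k :=
    aeval (fun i : Fin (d + 1) => Polynomial.C (c' i) * Polynomial.X ^ (2 * (i : ℕ) - d)) P with hq
  have hqs : ∀ s : k, q.eval s = eval (fun i => c' i * s ^ (2 * (i : ℕ) - d)) P := fun s => by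
    rw [hq, aeval_eq_eval₂Hom, coe_eval₂Hom, ← Polynomial.coe_evalRingHom, eval₂_comp_left]
    show _ = eval₂ (RingHom.id k) _ P
    refine congrArg₂ (fun φ ψ => eval₂ φ ψ P) (RingHom.ext fun t => by simp) (funext fun i => by
      simp)
  have hscale : ∀ s : k, s ≠ 0 → q.eval s = eval c' P := fun s hs => by
    rw [hqs, ← hP !![s⁻¹, 0; 0, s] (by simp [Matrix.det_fin_two, hs]) c']
    refine congrArg (fun e => eval e P) (_root_.funext fun i => ?_)
    have e : subst (!![s⁻¹, 0; 0, s] : Matrix (Fin 2) (Fin 2) k) c' =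
        fun l : Fin (d + 1) => c' l * (s⁻¹ ^ (d - (l : ℕ)) * s ^ (l : ℕ)) := by
      conv_rhs => rw [← coeffsOf_formOf (d := d) fun l : Fin (d + 1) =>
        c' l * (s⁻¹ ^ (d - (l : ℕ)) * s ^ (l : ℕ))]
      refine congrArg (coeffsOf d) ?_
      simp only [formOf, map_sum, map_mul, map_pow, act_X, Fin.sum_univ_two]
      refine Finset.sum_congr rfl fun l _ => ?_
      rw [show act (!![s⁻¹, 0; 0, s] : Matrix (Fin 2) (Fin 2) k) (C (c' l)) = C (c' l) from
        (act _).commutes _]
      simp [mul_pow]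
      ring
    rw [e]
    rcases lt_or_ge (i : ℕ) m with hi | hi
    · simp [hzero i hi]
    · congr 1
      have := i.2
      rw [inv_pow, ← div_eq_inv_mul, eq_div_iff (pow_ne_zero _ hs), ← pow_add]
      congr 1
      omega
  have hconst : q = Polynomial.C (eval c' P) := by
    refine sub_eq_zero.1 (Polynomial.eq_zero_of_infinite_isRoot _ ?_)
    refine Set.infinite_of_injective_forall_mem (f := fun a : ℕ => ((a + 1 : ℕ) : k))
      (fun a b hab => by simpa using hab) fun a => ?_
    show Polynomial.IsRoot _ _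
    rw [Polynomial.IsRoot.def, Polynomial.eval_sub, Polynomial.eval_C,
      hscale _ (Nat.cast_ne_zero.2 (Nat.succ_ne_zero a)), sub_self]
  have h0 := hqs 0
  rw [hconst, Polynomial.eval_C] at h0
  rw [h0]
  refine congrArg (fun e => eval e P) (_root_.funext fun i => ?_)
  rcases lt_or_ge (i : ℕ) m with hi | hi
  · simp [hzero i hi]
  · simp [zero_pow (show 2 * (i : ℕ) - d ≠ 0 by omega)]

/-- **Hilbert's criterion.** -/
theorem nullcone_iff (c : Fin (d + 1) → k) :
    (∀ P : MvPolynomial (Fin (d + 1)) k,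
      (∀ g : Matrix (Fin 2) (Fin 2) k, g.det = 1 → ∀ c, eval (subst g c) P = eval c P) →
        eval c P = eval 0 P) ↔
      ∃ (v : Fin 2 → k) (m : ℕ), v ≠ 0 ∧ d < 2 * m ∧ lin v ^ m ∣ formOf c := by
  refine ⟨fun h => by_contra fun hc => ?_,
    fun ⟨v, m, hv, hm, hd⟩ P hP => eval_eq_of_dvd hv hm hd hP⟩
  simp only [not_exists, not_and] at hc
  obtain ⟨P, hP, hne⟩ := exists_invariant_ne_zero c hc
  exact hne (h P hP)

end FA.Nullcone
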